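import Fermat.Agent.GAL.Mod.ES

/-!
# GAL / Mod : the Hecke–Galois module `S / FLˣ` attached to a system `S` of Kummer elements
-/

set_option autoImplicit false
set_option linter.style.haveILetI false

open ModularCurve AlgebraicCurve

noncomputable section

namespace Fermat.Agent.GAL

/-- the units of `ℚ̄((q))`. -/
abbrev LU : Type := (LaurentSeries Qb)ˣ

/-- the units lying in the function field of level `M`. -/
def FLu (M : ℕ) : Subgroup LU where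
  carrier := {u | (u : LaurentSeries Qb) ∈ FL Qb M}
  one_mem' := one_mem (FL Qb M)
  mul_mem' := fun {a b} ha hb => by
    show ((a * b : LU) : LaurentSeries Qb) ∈ FL Qb M
    rw [Units.val_mul]; exact mul_mem ha hb
  inv_mem' := fun {a} ha => by
    show ((a⁻¹ : LU) : LaurentSeries Qb) ∈ FL Qb M
    rw [Units.val_inv_eq_inv_val]; exact inv_mem ha

theorem mem_FLu {M : ℕ} {u : LU} : u ∈ FLu M ↔ (u : LaurentSeries Qb) ∈ FL Qb M := Iff.rfl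

/-- Galois action on units. -/
def galU (σ : GQ) : LU →* LU := Units.map (galS σ : LaurentSeries Qb →* LaurentSeries Qb)

/-- Hecke action on units. -/
def heckeU (ℓ : ℕ) [NeZero ℓ] : LU →* LU := Units.map (heckeS Qb ℓ)

@[simp] theorem coe_galU (σ : GQ) (u : LU) : ((galU σ u : LU) : LaurentSeries Qb) = galS σ u := rfl

@[simp] theorem coe_heckeU (ℓ : ℕ) [NeZero ℓ] (u : LU) :
    ((heckeU ℓ u : LU) : LaurentSeries Qb) = heckeS Qb ℓ u := rfl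

theorem galS_one (x : LaurentSeries Qb) : galS 1 x = x := by
  ext k; rfl

theorem galS_mul (σ τ : GQ) (x : LaurentSeries Qb) : galS (σ * τ) x = galS σ (galS τ x) := by
  ext k; rfl

theorem galU_one (u : LU) : galU 1 u = u := Units.ext (galS_one _)

theorem galU_mul (σ τ : GQ) (u : LU) : galU (σ * τ) u = galU σ (galU τ u) :=
  Units.ext (galS_mul σ τ _)

theorem galU_heckeU (σ : GQ) (ℓ : ℕ) [NeZero ℓ] (u : LU) :
    galU σ (heckeU ℓ u) = heckeU ℓ (galU σ u) := Units.ext (galS_heckeS σ ℓ _)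

theorem galU_mem_FLu {M : ℕ} (σ : GQ) {u : LU} (hu : u ∈ FLu M) : galU σ u ∈ FLu M :=
  galS_mem_FL σ hu

/-- A Galois and Hecke stable group of Kummer elements of level `M`, containing `FLˣ`. -/
structure KumSys (M : ℕ) where
  S : Subgroup LU
  FL_le : FLu M ≤ S
  gal_mem : ∀ σ : GQ, ∀ u ∈ S, galU σ u ∈ S
  hecke_mem : ∀ (ℓ : ℕ) [NeZero ℓ], ℓ.Prime → ¬ ℓ ∣ M → ∀ u ∈ S, heckeU ℓ u ∈ S
  hecke_FL : ∀ (ℓ : ℕ) [NeZero ℓ], ℓ.Prime → ¬ ℓ ∣ M → ∀ u ∈ FLu M, heckeU ℓ u ∈ FLu M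
  good : ℕ → Prop
  kum : ∀ u ∈ S, ∃ n : ℕ, n ≠ 0 ∧ (∀ ℓ : ℕ, ℓ.Prime → good ℓ → ¬ ℓ ∣ n) ∧
    IsKum Qb M n (u : LaurentSeries Qb)

namespace KumSys

variable {M : ℕ} (K : KumSys M)

/-- the quotient group (multiplicative). -/
abbrev Q : Type := K.S ⧸ (FLu M).subgroupOf K.S

/-- the module. -/
def W : Type := Additive K.Q

instance : AddCommGroup K.W := inferInstanceAs (AddCommGroup (Additive K.Q))

/-- the class of an element. -/
def cls (u : K.S) : K.W := Additive.ofMul (QuotientGroup.mk u)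

theorem cls_surjective : Function.Surjective K.cls := by
  intro x
  obtain ⟨u, hu⟩ := QuotientGroup.mk_surjective (Additive.toMul x)
  exact ⟨u, congrArg Additive.ofMul hu⟩

theorem cls_eq_zero_iff (u : K.S) : K.cls u = 0 ↔ ((u : LU) : LaurentSeries Qb) ∈ FL Qb M := by
  have h : K.cls u = 0 ↔ (QuotientGroup.mk u : K.Q) = 1 := Iff.rfl
  rw [h, QuotientGroup.eq_one_iff, Subgroup.mem_subgroupOf]
  exact Iff.rfl

theorem cls_mul (u v : K.S) : K.cls (u * v) = K.cls u + K.cls v := rfl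

theorem cls_inv (u : K.S) : K.cls u⁻¹ = - K.cls u := rfl

theorem cls_one : K.cls 1 = 0 := rfl

theorem cls_div (u v : K.S) : K.cls (u / v) = K.cls u - K.cls v := rfl

theorem cls_pow (u : K.S) (k : ℕ) : K.cls (u ^ k) = k • K.cls u := rfl

theorem cls_eq_iff (u v : K.S) :
    K.cls u = K.cls v ↔ ((u : LU) : LaurentSeries Qb) / ((v : LU) : LaurentSeries Qb) ∈ FL Qb M := by
  rw [← sub_eq_zero, ← cls_div, cls_eq_zero_iff]
  simp [div_eq_mul_inv]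

/-- the endomorphism induced by an endomorphism of the group of units. -/
def ind (φ : LU →* LU) (hS : ∀ u ∈ K.S, φ u ∈ K.S) (hF : ∀ u ∈ FLu M, φ u ∈ FLu M) :
    K.W →+ K.W :=
  MonoidHom.toAdditive
    (QuotientGroup.map _ _ ((φ.comp K.S.subtype).codRestrict K.S (fun u => hS u u.2))
      (fun _ hu => hF _ hu))

theorem ind_cls (φ : LU →* LU) (hS : ∀ u ∈ K.S, φ u ∈ K.S) (hF : ∀ u ∈ FLu M, φ u ∈ FLu M)
    (u : K.S) : K.ind φ hS hF (K.cls u) = K.cls ⟨φ u, hS u u.2⟩ := rfl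

/-- the Galois action. -/
def act (σ : GQ) : K.W →+ K.W := K.ind (galU σ) (K.gal_mem σ) (fun _ hu => galU_mem_FLu σ hu)

theorem act_cls (σ : GQ) (u : K.S) : K.act σ (K.cls u) = K.cls ⟨galU σ u, K.gal_mem σ u u.2⟩ := rfl

open Classical in
/-- the Hecke operators (junk `0` if `ℓ` is not a prime not dividing `M`). -/
def T (ℓ : ℕ) : K.W →+ K.W :=
  if h : ℓ.Prime ∧ ¬ ℓ ∣ M then
    haveI : NeZero ℓ := ⟨h.1.ne_zero⟩
    K.ind (heckeU ℓ) (K.hecke_mem ℓ h.1 h.2) (K.hecke_FL ℓ h.1 h.2)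
  else 0

theorem T_cls (ℓ : ℕ) [NeZero ℓ] (hℓ : ℓ.Prime) (hℓM : ¬ ℓ ∣ M) (u : K.S) :
    K.T ℓ (K.cls u) = K.cls ⟨heckeU ℓ u, K.hecke_mem ℓ hℓ hℓM u u.2⟩ := by
  rw [T, dif_pos ⟨hℓ, hℓM⟩]
  rfl

theorem act_one (x : K.W) : K.act 1 x = x := by
  obtain ⟨u, rfl⟩ := K.cls_surjective x
  rw [act_cls]
  exact congrArg K.cls (Subtype.ext (galU_one _))

theorem act_mul (σ τ : GQ) (x : K.W) : K.act (σ * τ) x = K.act σ (K.act τ x) := by
  obtain ⟨u, rfl⟩ := K.cls_surjective x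
  rw [act_cls, act_cls, act_cls]
  exact congrArg K.cls (Subtype.ext (galU_mul σ τ _))

theorem act_T (σ : GQ) (ℓ : ℕ) (x : K.W) : K.act σ (K.T ℓ x) = K.T ℓ (K.act σ x) := by
  by_cases h : ℓ.Prime ∧ ¬ ℓ ∣ M
  · haveI : NeZero ℓ := ⟨h.1.ne_zero⟩
    obtain ⟨u, rfl⟩ := K.cls_surjective x
    rw [T_cls K ℓ h.1 h.2, act_cls, act_cls, T_cls K ℓ h.1 h.2]
    exact congrArg K.cls (Subtype.ext (galU_heckeU σ ℓ _))
  · rw [T, dif_neg h]
    simp

theorem smooth (x : K.W) : ∃ L : IntermediateField ℚ Qb, FiniteDimensional ℚ L ∧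
    ∀ σ : GQ, (∀ a ∈ L, σ a = a) → K.act σ x = x := by
  obtain ⟨u, rfl⟩ := K.cls_surjective x
  obtain ⟨n, hn, -, hk⟩ := K.kum u u.2
  obtain ⟨L, hL, h⟩ := hk.exists_level hn
  refine ⟨L, hL, fun σ hσ => ?_⟩
  rw [act_cls, cls_eq_iff]
  exact h σ hσ

theorem inertia (hK : KeyLemmaStatement) (hM0 : M ≠ 0) (hM : AdmLevel M) {ℓ : ℕ} (hℓ : ℓ.Prime)
    (hℓM : ¬ ℓ ∣ M) (hg : K.good ℓ) (A : ValuationSubring Qb) (hA : A.LiesOverPrime ℓ) (σ : GQ)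
    (hσ : σ ∈ A.inertiaSubgroupIn ℚ) (x : K.W) : K.act σ x = x := by
  obtain ⟨u, rfl⟩ := K.cls_surjective x
  obtain ⟨n, hn, hgn, hk⟩ := K.kum u u.2
  rw [act_cls, cls_eq_iff]
  exact inertia_mem hK hM0 hM hℓ hℓM (hgn ℓ hℓ hg) A hA σ hσ hk

theorem es (hK : KeyLemmaStatement) (hM0 : M ≠ 0) (hM : AdmLevel M) {ℓ : ℕ} (hℓ : ℓ.Prime)
    (hℓM : ¬ ℓ ∣ M) (hg : K.good ℓ) (A : ValuationSubring Qb) (hA : A.LiesOverPrime ℓ) (σ : GQ)
    (hσ : A.IsFrobeniusAt σ ℓ) (x : K.W) :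
    K.act σ (K.act σ x) - K.T ℓ (K.act σ x) + ℓ • x = 0 := by
  haveI : NeZero ℓ := ⟨hℓ.ne_zero⟩
  obtain ⟨u, rfl⟩ := K.cls_surjective x
  obtain ⟨n, hn, hgn, hk⟩ := K.kum u u.2
  obtain ⟨n', hn', hgn', hk'⟩ := K.kum (heckeU ℓ (galU σ u))
    (K.hecke_mem ℓ hℓ hℓM _ (K.gal_mem σ u u.2))
  have h1 : IsKum Qb M (n * n') ((u : LU) : LaurentSeries Qb) := hk.mul_exp n'
  have h2 : IsKum Qb M (n * n') (heckeS Qb ℓ (galS σ ((u : LU) : LaurentSeries Qb))) := by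
    rw [mul_comm]; exact hk'.mul_exp n
  have h3 : ¬ ℓ ∣ n * n' := by
    intro h
    rcases hℓ.dvd_mul.mp h with h | h
    · exact hgn ℓ hℓ hg h
    · exact hgn' ℓ hℓ hg h
  have key := es_mem hK hM0 hM hℓ hℓM h3 A hA σ hσ h1 h2
  rw [act_cls, act_cls, T_cls K ℓ hℓ hℓM, ← cls_pow, ← cls_div, ← cls_mul, cls_eq_zero_iff]
  convert key using 1
  simp [div_eq_mul_inv]
  ring

end KumSys

end Fermat.Agent.GAL
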