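import Fermat.Agent.GAL.Mod.Kum

/-!
# GAL / Mod : finite level, Eichler–Shimura and inertia for Kummer elements (elementwise)
-/

set_option autoImplicit false

open ModularCurve AlgebraicCurve
open Fermat.Agent.S24.FF (ord_algebraMap)

noncomputable section

namespace Fermat.Agent.GAL

variable {M n : ℕ}

/-- every element of `FL Qb M` is fixed by an open subgroup. -/
theorem exists_level_of_mem_FL {x : LaurentSeries Qb} (hx : x ∈ FL Qb M) :
    ∃ L : IntermediateField ℚ Qb, FiniteDimensional ℚ L ∧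
      ∀ σ : GQ, (∀ a ∈ L, σ a = a) → galS σ x = x := by
  rw [mem_laurentBaseChange_iff] at hx
  induction hx using Subfield.closure_induction with
  | mem x hx =>
    rcases hx with ⟨c, rfl⟩ | ⟨y, -, rfl⟩
    · refine ⟨IntermediateField.adjoin ℚ {c},
        IntermediateField.adjoin.finiteDimensional
          ((AlgebraicClosure.isAlgebraic ℚ).isAlgebraic c).isIntegral, ?_⟩
      intro σ hσ
      have h1 : σ c = c := hσ c (IntermediateField.mem_adjoin_simple_self ℚ c)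
      have h2 := coeffMap_algebraMap (σ : Qb →+* Qb) c
      rw [show ((σ : Qb →+* Qb) c) = c from h1] at h2
      exact h2
    · exact ⟨⊥, inferInstance, fun σ _ => coeffMap_coeffEmb σ y⟩
  | one => exact ⟨⊥, inferInstance, fun σ _ => map_one _⟩
  | add x y _ _ hx hy =>
    obtain ⟨L1, hL1, h1⟩ := hx
    obtain ⟨L2, hL2, h2⟩ := hy
    refine ⟨L1 ⊔ L2, IntermediateField.finiteDimensional_sup L1 L2, fun σ hσ => ?_⟩
    rw [map_add, h1 σ fun a ha => hσ a ((le_sup_left : L1 ≤ L1 ⊔ L2) ha),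
      h2 σ fun a ha => hσ a ((le_sup_right : L2 ≤ L1 ⊔ L2) ha)]
  | neg x _ hx =>
    obtain ⟨L1, hL1, h1⟩ := hx
    exact ⟨L1, hL1, fun σ hσ => by rw [map_neg, h1 σ hσ]⟩
  | inv x _ hx =>
    obtain ⟨L1, hL1, h1⟩ := hx
    exact ⟨L1, hL1, fun σ hσ => by rw [map_inv₀, h1 σ hσ]⟩
  | mul x y _ _ hx hy =>
    obtain ⟨L1, hL1, h1⟩ := hx
    obtain ⟨L2, hL2, h2⟩ := hy
    refine ⟨L1 ⊔ L2, IntermediateField.finiteDimensional_sup L1 L2, fun σ hσ => ?_⟩
    rw [map_mul, h1 σ fun a ha => hσ a ((le_sup_left : L1 ≤ L1 ⊔ L2) ha),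
      h2 σ fun a ha => hσ a ((le_sup_right : L2 ≤ L1 ⊔ L2) ha)]

/-- **smoothness**: the class of a Kummer element modulo `FL` is fixed by an open subgroup. -/
theorem IsKum.exists_level {u : LaurentSeries Qb} (hn : n ≠ 0) (hu : IsKum Qb M n u) :
    ∃ L : IntermediateField ℚ Qb, FiniteDimensional ℚ L ∧
      ∀ σ : GQ, (∀ a ∈ L, σ a = a) → Fermat.Agent.GAL.galS σ u / u ∈ FL Qb M := by
  obtain ⟨L, hL, h⟩ := exists_level_of_mem_FL hu.pow_mem
  refine ⟨L, hL, fun σ hσ => ?_⟩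
  apply mem_FL_of_pow_eq_C M hn (c := 1)
  rw [div_pow, ← map_pow, h σ hσ, div_self (pow_ne_zero n hu.ne_zero), map_one]

/-- the key lemma, applied to a Kummer element `R` with `c R ^ n ≡ 1`. -/
theorem mem_FL_of_hasRed (hK : KeyLemmaStatement) {ℓ : ℕ} (hM0 : M ≠ 0) (hM : AdmLevel M)
    (hℓ : ℓ.Prime) (hℓM : ¬ ℓ ∣ M) (hℓn : ¬ ℓ ∣ n) (A : ValuationSubring Qb)
    (hA : A.LiesOverPrime ℓ) {R : LaurentSeries Qb} (hR : IsKum Qb M n R) {c : Qb} (hc : c ≠ 0)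
    (hred : GR.HasRed A (HahnSeries.C c * R ^ n) 1) : R ∈ FL Qb M := by
  have hn : n ≠ 0 := by rintro rfl; exact hℓn (dvd_zero ℓ)
  obtain ⟨R0, Rf, RP⟩ := hR
  have hC0 : (HahnSeries.C c : LaurentSeries Qb) ≠ 0 := by
    intro h
    apply hc
    have := congrArg (fun f : LaurentSeries Qb => f.coeff 0) h
    simpa using this
  have hW : HahnSeries.C c * R ^ n ∈ FL Qb M := mul_mem (C_mem_FL M c) Rf
  have hW0 : HahnSeries.C c * R ^ n ≠ 0 := mul_ne_zero hC0 (pow_ne_zero n R0)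
  obtain ⟨y, hy, hyW⟩ := hK M n ℓ hM0 hM hℓ hℓM hℓn A hA _ hW hW0 hred (by
    intro P
    have e : (⟨HahnSeries.C c * R ^ n, hW⟩ : FL Qb M) =
        algebraMap Qb (FL Qb M) c * ⟨R ^ n, Rf⟩ := Subtype.ext (by
      show HahnSeries.C c * R ^ n = algebraMap Qb (LaurentSeries Qb) c * R ^ n
      rw [C_eq_algebraMap])
    rw [e, P.ord_mul (by
      intro H
      exact hc ((map_eq_zero (algebraMap Qb (FL Qb M))).mp H))
      (fun H => pow_ne_zero n R0 (congrArg Subtype.val H)), ord_algebraMap, zero_add]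
    exact RP P)
  have hy0 : y ≠ 0 := by
    rintro rfl
    rw [zero_pow hn] at hyW
    exact hW0 hyW.symm
  have h1 : y / R ∈ FL Qb M := by
    apply mem_FL_of_pow_eq_C M hn (c := c)
    rw [div_pow, hyW, mul_div_assoc, div_self (pow_ne_zero n R0), mul_one]
  have h2 : R = y / (y / R) := by
    field_simp
  rw [h2]
  exact div_mem hy h1

/-- **Eichler–Shimura**, elementwise. -/
theorem es_mem (hK : KeyLemmaStatement) {ℓ : ℕ} [NeZero ℓ] (hM0 : M ≠ 0) (hM : AdmLevel M)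
    (hℓ : ℓ.Prime) (hℓM : ¬ ℓ ∣ M) (hℓn : ¬ ℓ ∣ n) (A : ValuationSubring Qb)
    (hA : A.LiesOverPrime ℓ) (σ : GQ) (hσ : A.IsFrobeniusAt σ ℓ) {u : LaurentSeries Qb}
    (hu : IsKum Qb M n u) (hT : IsKum Qb M n (heckeS Qb ℓ (galS σ u))) :
    galS σ (galS σ u) * u ^ ℓ / heckeS Qb ℓ (galS σ u) ∈ FL Qb M := by
  obtain ⟨c, hc, hred⟩ := es_gauss ℓ hℓ A hA σ hσ M hu.pow_mem (pow_ne_zero n hu.ne_zero)
  refine mem_FL_of_hasRed hK hM0 hM hℓ hℓM hℓn A hA
    ((((hu.galS σ).galS σ).mul (hu.pow ℓ)).div hT) hc ?_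
  convert hred using 2
  simp only [map_pow, div_pow, mul_pow]
  rw [← pow_mul, ← pow_mul, mul_comm ℓ n]

/-- **inertia acts trivially**, elementwise. -/
theorem inertia_mem (hK : KeyLemmaStatement) {ℓ : ℕ} (hM0 : M ≠ 0) (hM : AdmLevel M)
    (hℓ : ℓ.Prime) (hℓM : ¬ ℓ ∣ M) (hℓn : ¬ ℓ ∣ n) (A : ValuationSubring Qb)
    (hA : A.LiesOverPrime ℓ) (σ : GQ) (hσ : σ ∈ A.inertiaSubgroupIn ℚ) {u : LaurentSeries Qb}
    (hu : IsKum Qb M n u) : galS σ u / u ∈ FL Qb M := by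
  obtain ⟨c, hc, hred⟩ := inertia_gauss A σ hσ M hu.pow_mem (pow_ne_zero n hu.ne_zero)
  refine mem_FL_of_hasRed hK hM0 hM hℓ hℓM hℓn A hA ((hu.galS σ).div hu) hc ?_
  convert hred using 2
  simp only [map_pow, div_pow]

end Fermat.Agent.GAL
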