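import Fermat.Agent.GAL.Mod.Quot
import Fermat.Agent.GAL.HK.Bridge

/-!
# GAL / Mod : the system of Kummer elements generated by the Galois conjugates of the analytic ones
-/

set_option autoImplicit false
set_option linter.style.haveILetI false

open ModularCurve AlgebraicCurve CongruenceSubgroup

noncomputable section

namespace Fermat.Agent.GAL

variable {M : ℕ}

theorem heckeCoh_zero {ℓ : ℕ} (hℓ : ℓ.Prime) (hℓM : ¬ ℓ ∣ M) (A : Type*) [AddCommGroup A] :
    heckeCoh M ℓ (0 : Additive (Gamma0 M) →+ A) = 0 := by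
  rw [HK.heckeCoh_eq_cohT M hℓ hℓM, map_zero]

theorem AnPackage.hecke_FL {n : ℕ} (p : AnPackage M n) (ℓ : ℕ) [NeZero ℓ] (hℓ : ℓ.Prime)
    (hℓM : ¬ ℓ ∣ M) (u : LU) (hu : u ∈ FLu M) : heckeU ℓ u ∈ FLu M := by
  have h1 : p.chr ⟨u, p.FL_le u hu⟩ = 1 := (p.chr_eq_one_iff ⟨u, p.FL_le u hu⟩).mpr hu
  have h2 := p.chr_hecke ℓ hℓ hℓM ⟨u, p.FL_le u hu⟩
  rw [h1] at h2
  have h3 : p.chr ⟨_, p.hecke_mem ℓ hℓ hℓM u (p.FL_le u hu)⟩ = 1 := by
    apply Multiplicative.toAdd.injective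
    apply Subtype.ext
    rw [h2]
    exact heckeCoh_zero hℓ hℓM _
  exact (p.chr_eq_one_iff _).mp h3

variable {ι : Type} (e : ι → ℕ) (pk : ∀ i, AnPackage M (e i))

/-- the Galois conjugates of the analytic Kummer elements. -/
def genSet : Set LU := {v | ∃ (i : ι) (σ : GQ) (u : LU), u ∈ (pk i).Van ∧ v = galU σ u}

/-- the system generated by the Galois conjugates of the analytic Kummer elements. -/
def genSys (he : ∀ i, e i ≠ 0) (i₀ : ι) : KumSys M where
  S := Subgroup.closure (genSet e pk)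
  FL_le := fun u hu =>
    Subgroup.subset_closure ⟨i₀, 1, u, (pk i₀).FL_le u hu, (galU_one u).symm⟩
  gal_mem := fun σ u hu => by
    induction hu using Subgroup.closure_induction with
    | mem x hx =>
      obtain ⟨i, τ, v, hv, rfl⟩ := hx
      exact Subgroup.subset_closure ⟨i, σ * τ, v, hv, (galU_mul σ τ v).symm⟩
    | one => rw [map_one]; exact one_mem _
    | mul x y _ _ hx hy => rw [map_mul]; exact mul_mem hx hy
    | inv x _ hx => rw [map_inv]; exact inv_mem hx
  hecke_mem := fun ℓ _ hℓ hℓM u hu => by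
    induction hu using Subgroup.closure_induction with
    | mem x hx =>
      obtain ⟨i, τ, v, hv, rfl⟩ := hx
      exact Subgroup.subset_closure
        ⟨i, τ, heckeU ℓ v, (pk i).hecke_mem ℓ hℓ hℓM v hv, (galU_heckeU τ ℓ v).symm⟩
    | one => rw [map_one]; exact one_mem _
    | mul x y _ _ hx hy => rw [map_mul]; exact mul_mem hx hy
    | inv x _ hx => rw [map_inv]; exact inv_mem hx
  hecke_FL := fun ℓ _ hℓ hℓM u hu => (pk i₀).hecke_FL ℓ hℓ hℓM u hu
  good := fun ℓ => ∀ i, ¬ ℓ ∣ e i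
  kum := fun u hu => by
    induction hu using Subgroup.closure_induction with
    | mem x hx =>
      obtain ⟨i, τ, v, hv, rfl⟩ := hx
      exact ⟨e i, he i, fun ℓ _ hg => hg i, ((pk i).isKum v hv).galS τ⟩
    | one => exact ⟨1, one_ne_zero, fun ℓ hℓ _ h => hℓ.one_lt.ne' (Nat.dvd_one.mp h), isKum_one⟩
    | mul x y _ _ hx hy =>
      obtain ⟨n, hn, hgn, hk⟩ := hx
      obtain ⟨n', hn', hgn', hk'⟩ := hy
      refine ⟨n * n', Nat.mul_ne_zero hn hn', fun ℓ hℓ hg h => ?_, ?_⟩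
      · rcases hℓ.dvd_mul.mp h with h | h
        · exact hgn ℓ hℓ hg h
        · exact hgn' ℓ hℓ hg h
      · rw [Units.val_mul]
        refine (hk.mul_exp n').mul ?_
        rw [mul_comm]
        exact hk'.mul_exp n
    | inv x _ hx =>
      obtain ⟨n, hn, hgn, hk⟩ := hx
      refine ⟨n, hn, hgn, ?_⟩
      rw [Units.val_inv_eq_inv_val]
      exact hk.inv

variable (he : ∀ i, e i ≠ 0) (i₀ : ι)

theorem Van_le_genSys (i : ι) : (pk i).Van ≤ (genSys e pk he i₀).S := fun u hu =>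
  Subgroup.subset_closure ⟨i, 1, u, hu, (galU_one u).symm⟩

/-- an exponent killing all the generators kills the module. -/
theorem genSys_nsmul_eq_zero (N : ℕ) (hN : ∀ i, e i ∣ N) (x : (genSys e pk he i₀).W) :
    N • x = 0 := by
  obtain ⟨⟨u, hu⟩, rfl⟩ := (genSys e pk he i₀).cls_surjective x
  rw [← KumSys.cls_pow, KumSys.cls_eq_zero_iff]
  show ((u ^ N : LU) : LaurentSeries Qb) ∈ FL Qb M
  change u ^ N ∈ FLu M
  change u ∈ Subgroup.closure (genSet e pk) at hu
  induction hu using Subgroup.closure_induction with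
  | mem x hx =>
    obtain ⟨i, τ, v, hv, rfl⟩ := hx
    obtain ⟨k, rfl⟩ := hN i
    rw [← map_pow]
    apply galU_mem_FLu
    rw [pow_mul]
    apply pow_mem
    show ((v ^ e i : LU) : LaurentSeries Qb) ∈ FL Qb M
    rw [Units.val_pow_eq_pow_val]
    exact ((pk i).isKum v hv).pow_mem
  | one => rw [one_pow]; exact one_mem _
  | mul x y _ _ hx hy => rw [mul_pow]; exact mul_mem hx hy
  | inv x _ hx => rw [inv_pow]; exact inv_mem hx

/-- the class of an analytic element. -/
def clsVan (i : ι) (u : (pk i).Van) : (genSys e pk he i₀).W :=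
  (genSys e pk he i₀).cls ⟨u, Van_le_genSys e pk he i₀ i u.2⟩

theorem clsVan_mul (i : ι) (u v : (pk i).Van) :
    clsVan e pk he i₀ i (u * v) = clsVan e pk he i₀ i u + clsVan e pk he i₀ i v := rfl

theorem clsVan_eq_of_chr_eq (i : ι) (u v : (pk i).Van) (h : (pk i).chr u = (pk i).chr v) :
    clsVan e pk he i₀ i u = clsVan e pk he i₀ i v := by
  have h1 : (pk i).chr (u / v) = 1 := by
    rw [div_eq_mul_inv, map_mul, map_inv, h]
    exact mul_inv_cancel ((pk i).chr v)
  have h2 := ((pk i).chr_eq_one_iff (u / v)).mp h1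
  rw [clsVan, clsVan, KumSys.cls_eq_iff]
  have h3 : (((u / v : (pk i).Van) : LU) : LaurentSeries Qb) =
      ((u : LU) : LaurentSeries Qb) / ((v : LU) : LaurentSeries Qb) := by
    rw [Subgroup.coe_div, Units.val_div_eq_div_val]
  rw [← h3]
  exact h2

/-- a chosen analytic element with given character. -/
def liftVan (i : ι) (P : HPar M (e i)) : (pk i).Van :=
  ((pk i).chr_surjective (Multiplicative.ofAdd P)).choose

theorem chr_liftVan (i : ι) (P : HPar M (e i)) :
    (pk i).chr (liftVan e pk i P) = Multiplicative.ofAdd P :=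
  ((pk i).chr_surjective (Multiplicative.ofAdd P)).choose_spec

/-- `Ψ : Hom_par(Γ₀(M), ℤ/n) → S / FLˣ`. -/
def psi (i : ι) : HPar M (e i) →+ (genSys e pk he i₀).W where
  toFun P := clsVan e pk he i₀ i (liftVan e pk i P)
  map_zero' := by
    have h : clsVan e pk he i₀ i (liftVan e pk i 0) = clsVan e pk he i₀ i 1 :=
      clsVan_eq_of_chr_eq e pk he i₀ i _ _ (by rw [chr_liftVan, map_one]; rfl)
    rw [h]; rfl
  map_add' P Q := by
    rw [← clsVan_mul]
    exact clsVan_eq_of_chr_eq e pk he i₀ i _ _ (by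
      rw [map_mul, chr_liftVan, chr_liftVan, chr_liftVan]; rfl)

theorem psi_chr (i : ι) (u : (pk i).Van) :
    psi e pk he i₀ i (Multiplicative.toAdd ((pk i).chr u)) =
      (genSys e pk he i₀).cls ⟨u, Van_le_genSys e pk he i₀ i u.2⟩ :=
  clsVan_eq_of_chr_eq e pk he i₀ i _ _ (by rw [chr_liftVan]; rfl)

theorem psi_injective (i : ι) : Function.Injective (psi e pk he i₀ i) := by
  rw [injective_iff_map_eq_zero]
  intro P hP
  obtain ⟨u, hu⟩ := (pk i).chr_surjective (Multiplicative.ofAdd P)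
  have hP' : P = Multiplicative.toAdd ((pk i).chr u) := by rw [hu]; rfl
  rw [hP', psi_chr, KumSys.cls_eq_zero_iff] at hP
  rw [hP', ((pk i).chr_eq_one_iff u).mpr hP]
  rfl

theorem T_psi (i : ι) {ℓ : ℕ} (hℓ : ℓ.Prime) (hℓM : ¬ ℓ ∣ M) (P Q : HPar M (e i))
    (hQ : (Q : Additive (Gamma0 M) →+ ZMod (e i)) =
      heckeCoh M ℓ (P : Additive (Gamma0 M) →+ ZMod (e i))) :
    (genSys e pk he i₀).T ℓ (psi e pk he i₀ i P) = psi e pk he i₀ i Q := by
  haveI : NeZero ℓ := ⟨hℓ.ne_zero⟩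
  obtain ⟨u, hu⟩ := (pk i).chr_surjective (Multiplicative.ofAdd P)
  have hP' : P = Multiplicative.toAdd ((pk i).chr u) := by rw [hu]; rfl
  have hQ' : Q = Multiplicative.toAdd ((pk i).chr ⟨_, (pk i).hecke_mem ℓ hℓ hℓM u u.2⟩) := by
    apply Subtype.ext
    rw [hQ, (pk i).chr_hecke ℓ hℓ hℓM u, hP']
  rw [hQ', psi_chr, hP', psi_chr, KumSys.T_cls _ ℓ hℓ hℓM]
  rfl

/-- compatibility of the maps `psi` for different exponents. -/
theorem nsmul_psi (i j : ι) (k : ℕ) (u : (pk j).Van) (hu : (u : LU) ^ k ∈ (pk i).Van) :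
    k • psi e pk he i₀ j (Multiplicative.toAdd ((pk j).chr u)) =
      psi e pk he i₀ i (Multiplicative.toAdd ((pk i).chr ⟨_, hu⟩)) := by
  rw [psi_chr, psi_chr, ← KumSys.cls_pow]
  rfl

end Fermat.Agent.GAL
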