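import Fermat.Agent.GAL.ModuleDefs
import Fermat.Agent.GAL.ESR.Gauss
import Fermat.Agent.S24.FF.Basic

/-!
# GAL / Mod : elementwise lemmas on everywhere unramified Kummer elements

`IsKum Qb M n u` is stable under products, inverses, Galois conjugation; the class of `u` modulo
`FL Qb M` has finite level; Eichler–Shimura and triviality of inertia modulo `FL Qb M`
(from `KeyLemmaStatement`).
-/

set_option autoImplicit false

open ModularCurve AlgebraicCurve
open Fermat.Agent.S24.FF (ord_algebraMap)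

noncomputable section

namespace Fermat.Agent.GAL

variable {M n : ℕ}

/-! ## constants -/

theorem C_eq_algebraMap (c : Qb) :
    (HahnSeries.C c : LaurentSeries Qb) = algebraMap Qb (LaurentSeries Qb) c :=
  (algebraMap_laurentSeries_eq_single Qb c).symm

theorem C_mem_FL (M : ℕ) (c : Qb) : (HahnSeries.C c : LaurentSeries Qb) ∈ FL Qb M := by
  rw [C_eq_algebraMap]
  exact (FL Qb M).algebraMap_mem c

/-- an element of `ℚ̄((q))` which is integral over `ℚ̄` is a constant. -/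
theorem mem_FL_of_isIntegral (M : ℕ) {x : LaurentSeries Qb} (hx : IsIntegral Qb x) :
    x ∈ FL Qb M := by
  have h1 : (minpoly Qb x).degree = 1 :=
    IsAlgClosed.degree_eq_one_of_irreducible Qb (minpoly.irreducible hx)
  obtain ⟨c, hc⟩ := minpoly.mem_range_of_degree_eq_one Qb x h1
  rw [← hc]
  exact (FL Qb M).algebraMap_mem c

theorem mem_FL_of_pow_eq_C (M : ℕ) {x : LaurentSeries Qb} {k : ℕ} (hk : k ≠ 0) {c : Qb}
    (hx : x ^ k = HahnSeries.C c) : x ∈ FL Qb M := by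
  apply mem_FL_of_isIntegral
  refine IsIntegral.of_pow (Nat.pos_of_ne_zero hk) ?_
  rw [hx, C_eq_algebraMap]
  exact isIntegral_algebraMap

/-! ## closure properties of `IsKum` -/

theorem isKum_of_mem {h : LaurentSeries Qb} (hh : h ∈ FL Qb M) (h0 : h ≠ 0) : IsKum Qb M n h := by
  refine ⟨h0, pow_mem hh n, fun P => ?_⟩
  have : (⟨h ^ n, pow_mem hh n⟩ : FL Qb M) = (⟨h, hh⟩ : FL Qb M) ^ (n : ℤ) := by
    rw [zpow_natCast]; rfl
  rw [this, P.ord_zpow]
  exact Dvd.intro _ rfl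

theorem IsKum.ne_zero {h : LaurentSeries Qb} (hh : IsKum Qb M n h) : h ≠ 0 := hh.1

theorem IsKum.pow_mem {h : LaurentSeries Qb} (hh : IsKum Qb M n h) : h ^ n ∈ FL Qb M := hh.2.1

theorem IsKum.mul {h g : LaurentSeries Qb} (hh : IsKum Qb M n h) (hg : IsKum Qb M n g) :
    IsKum Qb M n (h * g) := by
  obtain ⟨h0, hf, hP⟩ := hh
  obtain ⟨g0, gf, gP⟩ := hg
  refine ⟨mul_ne_zero h0 g0, by rw [mul_pow]; exact mul_mem hf gf, fun P => ?_⟩
  have e : (⟨(h * g) ^ n, by rw [mul_pow]; exact mul_mem hf gf⟩ : FL Qb M) =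
      (⟨h ^ n, hf⟩ : FL Qb M) * ⟨g ^ n, gf⟩ := Subtype.ext (mul_pow h g n)
  rw [e, P.ord_mul (fun H => pow_ne_zero n h0 (congrArg Subtype.val H))
    (fun H => pow_ne_zero n g0 (congrArg Subtype.val H))]
  exact dvd_add (hP P) (gP P)

theorem IsKum.inv {h : LaurentSeries Qb} (hh : IsKum Qb M n h) : IsKum Qb M n h⁻¹ := by
  obtain ⟨h0, hf, hP⟩ := hh
  refine ⟨inv_ne_zero h0, by rw [inv_pow]; exact inv_mem hf, fun P => ?_⟩
  have e : (⟨h⁻¹ ^ n, by rw [inv_pow]; exact inv_mem hf⟩ : FL Qb M) =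
      (⟨h ^ n, hf⟩ : FL Qb M)⁻¹ := Subtype.ext (inv_pow h n)
  rw [e, P.ord_inv]
  exact (dvd_neg).mpr (hP P)

theorem IsKum.div {h g : LaurentSeries Qb} (hh : IsKum Qb M n h) (hg : IsKum Qb M n g) :
    IsKum Qb M n (h / g) := by
  rw [div_eq_mul_inv]; exact hh.mul hg.inv

theorem isKum_one : IsKum Qb M n (1 : LaurentSeries Qb) := isKum_of_mem (one_mem _) one_ne_zero

theorem IsKum.pow {h : LaurentSeries Qb} (hh : IsKum Qb M n h) (k : ℕ) : IsKum Qb M n (h ^ k) := by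
  induction k with
  | zero => rw [pow_zero]; exact isKum_one
  | succ k ih => rw [pow_succ]; exact ih.mul hh

/-- enlarging the exponent. -/
theorem IsKum.mul_exp {h : LaurentSeries Qb} (hh : IsKum Qb M n h) (k : ℕ) :
    IsKum Qb M (n * k) h := by
  obtain ⟨h0, hf, hP⟩ := hh
  refine ⟨h0, by rw [pow_mul]; exact _root_.pow_mem hf k, fun P => ?_⟩
  have e : (⟨h ^ (n * k), by rw [pow_mul]; exact _root_.pow_mem hf k⟩ : FL Qb M) =
      (⟨h ^ n, hf⟩ : FL Qb M) ^ (k : ℤ) := by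
    rw [zpow_natCast]; exact Subtype.ext (pow_mul h n k)
  rw [e, P.ord_zpow]
  push_cast
  rw [mul_comm]
  exact mul_dvd_mul_left _ (hP P)

theorem galS_mem_FL (σ : GQ) {x : LaurentSeries Qb} (hx : x ∈ FL Qb M) : galS σ x ∈ FL Qb M :=
  coeffMap_mem_laurentBaseChange σ hx

theorem galS_ne_zero (σ : GQ) {x : LaurentSeries Qb} (hx : x ≠ 0) : galS σ x ≠ 0 :=
  (map_ne_zero (galS σ)).mpr hx

theorem IsKum.galS {h : LaurentSeries Qb} (hh : IsKum Qb M n h) (σ : GQ) :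
    IsKum Qb M n (galS σ h) := by
  obtain ⟨h0, hf, hP⟩ := hh
  refine ⟨galS_ne_zero σ h0, by rw [← map_pow]; exact galS_mem_FL σ hf, fun P => ?_⟩
  set g := arithmeticGalois (L := Qb) (modularFunctionFieldFull M) σ with hg
  have e : (⟨Fermat.Agent.GAL.galS σ h ^ n, by rw [← map_pow]; exact galS_mem_FL σ hf⟩ : FL Qb M) =
      g • (⟨h ^ n, hf⟩ : FL Qb M) := Subtype.ext (by
    rw [coe_arithmeticGalois_smul]
    exact (map_pow (Fermat.Agent.GAL.galS σ) h n).symm)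
  have h2 := SemilinearAut.ord_smul g (g⁻¹ • P) (⟨h ^ n, hf⟩ : FL Qb M)
  rw [smul_inv_smul] at h2
  rw [e, h2]
  exact hP _

end Fermat.Agent.GAL
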